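import Mathlib
import Fermat.Prelude.Def_GaloisRep_Residual
import Fermat.Agent.Lib.Cheb.H476.Strong

/-!
# S48, RES layer A, piece EPS: the Galois character of a Dirichlet character (helper488)

* `cycN N : GQ →* (ZMod N)ˣ` : the mod `N` cyclotomic character of `Gal(ℚ̄/ℚ)` (any `N ≠ 0`);
  `cycN_spec`, `cycN_eq_one_of_fixes`, `cycN_frobenius` (`= ℓ` at a Frobenius at `ℓ ∤ N`),
  `cycN_eq_one_of_mem_inertia` (`ℓ ∤ N`), `cycN_finiteLevel`.
* `galChar χ : GQ →* M` for every monoid hom `χ : (ZMod N)ˣ →* M`, with the same properties.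
-/

set_option autoImplicit false

namespace Fermat.Agent.S48.H488

open Fermat.Agent.Lib.Cheb.Spec

section Cyc

variable (N : ℕ) [NeZero N]

/-- `ℚ̄` has `N` roots of unity of order dividing `N`. -/
theorem card_rootsOfUnity_Qb : Nat.card (rootsOfUnity N Qb) = N := by
  obtain ⟨ζ, hζ⟩ := HasEnoughRootsOfUnity.exists_primitiveRoot Qb N
  exact hζ.card_rootsOfUnity

/-- The coercion `Gal(ℚ̄/ℚ) → Aut(ℚ̄)` as a monoid homomorphism. -/
noncomputable def toRingAut : GQ →* (Qb ≃+* Qb) where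
  toFun σ := σ.toRingEquiv
  map_one' := rfl
  map_mul' _ _ := rfl

/-- The mod `N` cyclotomic character of `Gal(ℚ̄/ℚ)`. -/
noncomputable def cycN : GQ →* (ZMod N)ˣ :=
  (modularCyclotomicCharacter Qb (card_rootsOfUnity_Qb N)).comp toRingAut

theorem cycN_spec (σ : GQ) {ζ : Qb} (hζ : ζ ^ N = 1) :
    σ ζ = ζ ^ ((cycN N σ : (ZMod N)ˣ) : ZMod N).val := by
  have hN : N ≠ 0 := NeZero.ne N
  have hu : IsUnit ζ := IsUnit.of_pow_eq_one hζ hN
  obtain ⟨t, rfl⟩ := hu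
  have ht : t ∈ rootsOfUnity N Qb := by
    rw [mem_rootsOfUnity]
    exact Units.ext (by simpa using hζ)
  exact modularCyclotomicCharacter.spec Qb (card_rootsOfUnity_Qb N) σ.toRingEquiv ht

/-- Characterisation of the value of `cycN`. -/
theorem cycN_eq_of_forall (σ : GQ) (c : ZMod N)
    (h : ∀ ζ : Qb, ζ ^ N = 1 → σ ζ = ζ ^ c.val) : ((cycN N σ : (ZMod N)ˣ) : ZMod N) = c := by
  refine (modularCyclotomicCharacter.unique Qb (card_rootsOfUnity_Qb N) σ.toRingEquiv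
    (c := c) fun t ht => ?_).symm
  have ht' : ((t : Qbˣ) : Qb) ^ N = 1 := by
    rw [mem_rootsOfUnity] at ht
    have := congrArg Units.val ht
    simpa using this
  exact h _ ht'

theorem cycN_eq_one_of_fixes (σ : GQ) (h : ∀ ζ : Qb, ζ ^ N = 1 → σ ζ = ζ) : cycN N σ = 1 := by
  apply Units.ext
  rw [Units.val_one]
  apply cycN_eq_of_forall
  intro ζ hζ
  rw [h ζ hζ]
  rcases Nat.lt_or_ge 1 N with h1 | h1
  · have : Fact (1 < N) := ⟨h1⟩
    rw [ZMod.val_one, pow_one]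
  · have hN1 : N = 1 := le_antisymm h1 (Nat.pos_of_ne_zero (NeZero.ne N))
    subst hN1
    rw [pow_one] at hζ
    rw [hζ, one_pow]

/-- At a Frobenius element at `ℓ ∤ N` the cyclotomic character takes the value `ℓ`. -/
theorem cycN_frobenius {ℓ : ℕ} (hℓ : ℓ.Prime) (hℓN : ¬ ℓ ∣ N) (A : ValuationSubring Qb)
    (hA : A.LiesOverPrime ℓ) (τ : GQ) (hτ : A.IsFrobeniusAt τ ℓ) :
    ((cycN N τ : (ZMod N)ˣ) : ZMod N) = (ℓ : ZMod N) := by
  apply cycN_eq_of_forall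
  intro ζ hζ
  rw [Fermat.Agent.Lib.Cheb.H476.isFrobeniusAt_apply_of_pow_eq_one hℓ hA hτ hℓN hζ,
    ZMod.val_natCast]
  exact pow_eq_pow_mod ℓ hζ

/-- The inertia groups at the primes `ℓ ∤ N` are in the kernel of the cyclotomic character. -/
theorem cycN_eq_one_of_mem_inertia {ℓ : ℕ} (hℓ : ℓ.Prime) (hℓN : ¬ ℓ ∣ N)
    (A : ValuationSubring Qb) (hA : A.LiesOverPrime ℓ) (σ : GQ)
    (hσ : σ ∈ A.inertiaSubgroupIn ℚ) : cycN N σ = 1 := by
  apply cycN_eq_one_of_fixes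
  intro ζ hζ
  by_contra hne
  have hN : N ≠ 0 := NeZero.ne N
  have hζA : ζ ∈ A := Fermat.Agent.Lib.Cheb.H476.mem_of_pow_eq_one A hN hζ
  have hζ0 : ζ ≠ 0 := by
    rintro rfl
    rw [zero_pow hN] at hζ
    exact zero_ne_one hζ
  have hζinv : ζ⁻¹ ∈ A := by
    apply Fermat.Agent.Lib.Cheb.H476.mem_of_pow_eq_one A hN
    rw [inv_pow, hζ, inv_one]
  have h1 := Fermat.Agent.Lib.Cheb.H476.sub_mem_nonunits_of_mem_inertia A σ hσ ζ hζA
  -- `η = σ ζ / ζ`
  have hη : (σ ζ * ζ⁻¹) ^ N = 1 := by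
    rw [mul_pow, ← map_pow, hζ, map_one, inv_pow, hζ, inv_one, mul_one]
  have hη1 : σ ζ * ζ⁻¹ ≠ 1 := by
    intro h
    apply hne
    have := congrArg (· * ζ) h
    simpa [hζ0] using this
  have hη2 : σ ζ * ζ⁻¹ - 1 ∈ A.nonunits := by
    have e : σ ζ * ζ⁻¹ - 1 = (σ ζ - ζ) * ζ⁻¹ := by
      field_simp
    rw [e]
    exact Fermat.Agent.Lib.Cheb.H476.mul_mem_nonunits_of_mem A h1 hζinv
  have h2 := Fermat.Agent.Lib.Cheb.H476.natCast_mem_nonunits_of_root A hη hη1 hη2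
  -- `N` and `ℓ` are coprime and both in the maximal ideal
  have hcop : Nat.Coprime ℓ N := (Nat.Prime.coprime_iff_not_dvd hℓ).mpr hℓN
  have hA' : (ℓ : Qb) ∈ A.nonunits := hA
  have hbez : ((ℓ : ℤ) : Qb) * ((Nat.gcdA ℓ N : ℤ) : Qb) + ((N : ℤ) : Qb) * ((Nat.gcdB ℓ N : ℤ) : Qb)
      = 1 := by
    have := Nat.gcd_eq_gcd_ab ℓ N
    rw [hcop] at this
    have h3 := congrArg (fun z : ℤ => (z : Qb)) this
    simp only [Int.cast_add, Int.cast_mul] at h3
    rw [← h3]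
    simp
  have hint : ∀ z : ℤ, ((z : ℤ) : Qb) ∈ A := fun z => by
    have : ((z : ℤ) : Qb) = algebraMap ℤ Qb z := by simp
    rw [this]
    exact Fermat.Agent.S54.isIntegral_mem_valuationSubring A isIntegral_algebraMap
  have h4 : (1 : Qb) ∈ A.nonunits := by
    rw [← hbez]
    refine A.nonunits.add_mem ?_ ?_
    · have : ((ℓ : ℤ) : Qb) = (ℓ : Qb) := by simp
      rw [this]
      exact Fermat.Agent.Lib.Cheb.H476.mul_mem_nonunits_of_mem A hA' (hint _)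
    · have : ((N : ℤ) : Qb) = (N : Qb) := by simp
      rw [this]
      exact Fermat.Agent.Lib.Cheb.H476.mul_mem_nonunits_of_mem A h2 (hint _)
  exact Fermat.Agent.Lib.Cheb.H476.one_notMem_nonunits A h4

/-- The cyclotomic character factors through the finite level `ℚ(μ_N)`. -/
theorem cycN_finiteLevel : GaloisFactorsThroughFiniteLevel (cycN N) := by
  classical
  have hN : 0 < N := Nat.pos_of_ne_zero (NeZero.ne N)
  let s : Finset Qb := Polynomial.nthRootsFinset N (1 : Qb)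
  have hs : ∀ t : Qb, t ^ N = 1 → t ∈ s := fun t ht =>
    (Polynomial.mem_nthRootsFinset hN 1).2 ht
  have hint : ∀ x ∈ (s : Set Qb), IsIntegral ℚ x := fun x _ =>
    (AlgebraicClosure.isAlgebraic ℚ).isIntegral.isIntegral x
  refine ⟨IntermediateField.adjoin ℚ (s : Set Qb),
    IntermediateField.finiteDimensional_adjoin hint, fun σ hσ => ?_⟩
  apply cycN_eq_one_of_fixes
  intro ζ hζ
  exact hσ ζ (IntermediateField.subset_adjoin ℚ _ (hs ζ hζ))

end Cyc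

section GalChar

variable {N : ℕ} [NeZero N] {M : Type} [Monoid M]

/-- The Galois character attached to a character `χ` of `(ℤ/N)ˣ`. -/
noncomputable def galChar (χ : (ZMod N)ˣ →* M) : GQ →* M := χ.comp (cycN N)

theorem galChar_finiteLevel (χ : (ZMod N)ˣ →* M) : GaloisFactorsThroughFiniteLevel (galChar χ) := by
  obtain ⟨L, hL, h⟩ := cycN_finiteLevel N
  exact ⟨L, hL, fun σ hσ => by
    show χ (cycN N σ) = 1
    rw [h σ hσ, map_one]⟩

theorem galChar_eq_one_of_mem_inertia (χ : (ZMod N)ˣ →* M) {ℓ : ℕ} (hℓ : ℓ.Prime)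
    (hℓN : ¬ ℓ ∣ N) (A : ValuationSubring Qb) (hA : A.LiesOverPrime ℓ) (σ : GQ)
    (hσ : σ ∈ A.inertiaSubgroupIn ℚ) : galChar χ σ = 1 := by
  show χ (cycN N σ) = 1
  rw [cycN_eq_one_of_mem_inertia N hℓ hℓN A hA σ hσ, map_one]

theorem galChar_frobenius (χ : (ZMod N)ˣ →* M) {ℓ : ℕ} (hℓ : ℓ.Prime) (hℓN : ¬ ℓ ∣ N)
    (A : ValuationSubring Qb) (hA : A.LiesOverPrime ℓ) (τ : GQ) (hτ : A.IsFrobeniusAt τ ℓ)
    (u : (ZMod N)ˣ) (hu : ((u : (ZMod N)ˣ) : ZMod N) = (ℓ : ZMod N)) :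
    galChar χ τ = χ u := by
  show χ (cycN N τ) = χ u
  congr 1
  apply Units.ext
  rw [cycN_frobenius N hℓ hℓN A hA τ hτ, hu]

end GalChar

end Fermat.Agent.S48.H488
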