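import Mathlib
import Fermat.Prelude.Def_Deformations_MatrixRepresentation

/-!
# S48, piece P7 (irreducibility), algebraic part (helper488)

A two-dimensional matrix representation which is not irreducible has a common eigenvector; the
eigenvalue is a character `χ₁`, and `trace = χ₁ + det / χ₁`.

Mathlib + one Prelude definition file only.
-/

set_option autoImplicit false

namespace Fermat.Agent.S48.H488

open Matrix

section Alg

variable {G : Type} [Group G] {k : Type} [Field k]

/-- A matrix representation of degree two which is not irreducible has a common eigenvector. -/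
theorem exists_common_eigenvector_of_not_irreducible (ρ : G →* GL (Fin 2) k)
    (h : ¬ (Deformation.matrixRepresentation ρ).IsIrreducible) :
    ∃ v : Fin 2 → k, v ≠ 0 ∧ ∀ g : G, ∃ c : k, (ρ g).val.mulVec v = c • v := by
  classical
  by_contra hcon
  apply h
  have hnt : Nontrivial (Subrepresentation (Deformation.matrixRepresentation ρ)) := by
    refine ⟨⊥, ⊤, fun hbt => ?_⟩
    have h1 : (⊥ : Submodule k (Fin 2 → k)) = ⊤ :=
      congrArg Subrepresentation.toSubmodule hbt
    exact bot_ne_top h1
  refine { toNontrivial := hnt, eq_bot_or_eq_top := fun W => ?_ }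
  by_contra hW
  rw [not_or] at hW
  obtain ⟨hWb, hWt⟩ := hW
  have hWb' : W.toSubmodule ≠ ⊥ := fun hh =>
    hWb (Subrepresentation.toSubmodule_injective hh)
  have hWt' : W.toSubmodule ≠ ⊤ := fun hh =>
    hWt (Subrepresentation.toSubmodule_injective hh)
  have hlt : Module.finrank k W.toSubmodule < 2 := by
    have := Submodule.finrank_lt hWt'
    simpa using this
  have hpos : 1 ≤ Module.finrank k W.toSubmodule :=
    Submodule.one_le_finrank_iff.mpr hWb'
  have hone : Module.finrank k W.toSubmodule = 1 := by omega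
  obtain ⟨v, hvW, hv0⟩ := (Submodule.ne_bot_iff _).mp hWb'
  apply hcon
  refine ⟨v, hv0, fun g => ?_⟩
  have hv0' : (⟨v, hvW⟩ : W.toSubmodule) ≠ 0 := by
    intro hh
    exact hv0 (congrArg Subtype.val hh)
  have hgv : Deformation.matrixRepresentation ρ g v ∈ W.toSubmodule :=
    W.apply_mem_toSubmodule g hvW
  obtain ⟨c, hc⟩ := (finrank_eq_one_iff_of_nonzero' _ hv0').mp hone
    ⟨Deformation.matrixRepresentation ρ g v, hgv⟩
  refine ⟨c, ?_⟩
  have := congrArg Subtype.val hc
  simp only [Submodule.coe_smul, Deformation.matrixRepresentation_apply,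
    Matrix.mulVecLin_apply] at this
  exact this.symm

/-- Trace of a `2 × 2` matrix with an eigenvector of eigenvalue `c`: `c * tr = c ^ 2 + det`. -/
theorem mul_trace_eq_of_mulVec_eq (M : Matrix (Fin 2) (Fin 2) k) (v : Fin 2 → k) (hv : v ≠ 0)
    (c : k) (hc : M.mulVec v = c • v) : c * M.trace = c ^ 2 + M.det := by
  have h0 : (M - c • (1 : Matrix (Fin 2) (Fin 2) k)).mulVec v = 0 := by
    rw [Matrix.sub_mulVec, hc, Matrix.smul_mulVec, Matrix.one_mulVec, sub_self]
  have hdet : (M - c • (1 : Matrix (Fin 2) (Fin 2) k)).det = 0 :=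
    Matrix.exists_mulVec_eq_zero_iff.mp ⟨v, hv, h0⟩
  rw [Matrix.det_fin_two] at hdet
  simp only [Matrix.sub_apply, Matrix.smul_apply, Matrix.one_apply_eq, smul_eq_mul, mul_one,
    ne_eq, Fin.isValue, zero_ne_one, not_false_eq_true, Matrix.one_apply_ne, mul_zero, sub_zero,
    one_ne_zero] at hdet
  rw [Matrix.trace_fin_two, Matrix.det_fin_two]
  linear_combination -hdet

/-- A matrix representation of degree two which is not irreducible has trace `χ₁ + χ₂` for two
characters `χ₁ χ₂` which are trivial on the kernel of `ρ`. -/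
theorem exists_characters_of_not_irreducible (ρ : G →* GL (Fin 2) k)
    (h : ¬ (Deformation.matrixRepresentation ρ).IsIrreducible) :
    ∃ χ₁ χ₂ : G →* kˣ, (∀ g : G, ρ g = 1 → χ₁ g = 1 ∧ χ₂ g = 1) ∧
      ∀ g : G, (ρ g).val.trace = (χ₁ g : k) + (χ₂ g : k) := by
  classical
  obtain ⟨v, hv, hc⟩ := exists_common_eigenvector_of_not_irreducible ρ h
  choose c hc using hc
  have hinj : Function.Injective (fun a : k => a • v) := smul_left_injective k hv
  have hc1 : c 1 = 1 := by
    apply hinj
    simp only
    rw [← hc 1, map_one, one_smul]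
    simp
  have hcmul : ∀ g g' : G, c (g * g') = c g * c g' := by
    intro g g'
    apply hinj
    simp only
    rw [← hc (g * g'), map_mul]
    have : ((ρ g * ρ g' : GL (Fin 2) k) : Matrix (Fin 2) (Fin 2) k) = (ρ g).val * (ρ g').val := rfl
    rw [this, ← Matrix.mulVec_mulVec, hc g', Matrix.mulVec_smul, hc g, smul_smul, mul_comm]
  let χ₀ : G →* k := { toFun := c, map_one' := hc1, map_mul' := hcmul }
  let χ₁ : G →* kˣ := χ₀.toHomUnits
  have hχ₁ : ∀ g, (χ₁ g : k) = c g := fun g => rfl
  let χ₂ : G →* kˣ := (Matrix.GeneralLinearGroup.det.comp ρ) / χ₁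
  have hχ₂ : ∀ g, (χ₂ g : k) = (ρ g).val.det / c g := by
    intro g
    show ((Matrix.GeneralLinearGroup.det (ρ g) / χ₁ g : kˣ) : k) = _
    rw [Units.val_div_eq_div_val, hχ₁]
    rfl
  refine ⟨χ₁, χ₂, fun g hg => ?_, fun g => ?_⟩
  · have h1 : χ₁ g = 1 := by
      apply Units.ext
      rw [hχ₁, Units.val_one]
      apply hinj
      simp only
      rw [← hc g, hg, one_smul]
      simp
    refine ⟨h1, ?_⟩
    show Matrix.GeneralLinearGroup.det (ρ g) / χ₁ g = 1
    rw [h1, hg, map_one, div_one]
  · rw [hχ₁, hχ₂]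
    have hne : c g ≠ 0 := by
      rw [← hχ₁]
      exact Units.ne_zero _
    have := mul_trace_eq_of_mulVec_eq (ρ g).val v hv (c g) (hc g)
    field_simp
    linear_combination this

end Alg

end Fermat.Agent.S48.H488
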