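import Mathlib
import Fermat.Prelude.Def_GaloisRep_Residual

/-!
# S48, piece P7 (irreducibility), auxiliary lemmas (helper488)

* `finite_range_of_finiteLevel` : a homomorphism on `Gal(ℚ̄/ℚ)` which factors through a finite
  level has finite range;
* `re_sum_nonneg_of_mul_closed` : the sum of the elements of a finite subgroup of `ℂˣ` has
  nonnegative real part;
* `norm_one_add_sq` : `‖1 + c‖ ^ 2 = 2 + 2 Re c` on the unit circle.
-/

set_option autoImplicit false

namespace Fermat.Agent.S48.H488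

/-- A homomorphism on `Gal(ℚ̄/ℚ)` which factors through a finite level has finite range. -/
theorem finite_range_of_finiteLevel {M : Type} [Monoid M]
    (φ : (AlgebraicClosure ℚ ≃ₐ[ℚ] AlgebraicClosure ℚ) →* M)
    (h : GaloisFactorsThroughFiniteLevel φ) : (Set.range φ).Finite := by
  classical
  obtain ⟨L, hL, hφ⟩ := h
  have : FiniteDimensional ℚ L := hL
  let r : (AlgebraicClosure ℚ ≃ₐ[ℚ] AlgebraicClosure ℚ) → (L →ₐ[ℚ] AlgebraicClosure ℚ) :=
    fun σ => (σ : AlgebraicClosure ℚ →ₐ[ℚ] AlgebraicClosure ℚ).comp L.val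
  have hr : ∀ σ τ, r σ = r τ → φ σ = φ τ := by
    intro σ τ hστ
    have h1 : ∀ x ∈ L, (τ⁻¹ * σ) x = x := by
      intro x hx
      have h0 : σ x = τ x := DFunLike.congr_fun hστ ⟨x, hx⟩
      rw [AlgEquiv.mul_apply, h0]
      exact τ.symm_apply_apply x
    have h2 := hφ _ h1
    have h3 : φ σ = φ τ * φ (τ⁻¹ * σ) := by
      rw [← map_mul, mul_inv_cancel_left]
    rw [h3, h2, mul_one]
  let F : (L →ₐ[ℚ] AlgebraicClosure ℚ) → M := fun e =>
    if he : ∃ σ, r σ = e then φ he.choose else 1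
  have hF : ∀ σ, φ σ = F (r σ) := by
    intro σ
    have he : ∃ τ, r τ = r σ := ⟨σ, rfl⟩
    simp only [F, dif_pos he]
    exact hr _ _ he.choose_spec.symm
  refine (Set.finite_range F).subset ?_
  rintro _ ⟨σ, rfl⟩
  exact ⟨r σ, (hF σ).symm⟩

/-- On the unit circle, `‖1 + c‖ ^ 2 = 2 + 2 Re c`. -/
theorem norm_one_add_sq (c : ℂ) (hc : ‖c‖ = 1) : ‖1 + c‖ ^ 2 = 2 + 2 * c.re := by
  have h1 : ‖c‖ ^ 2 = 1 := by rw [hc]; norm_num
  rw [← Complex.normSq_eq_norm_sq] at h1 ⊢
  rw [Complex.normSq_apply] at h1 ⊢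
  simp only [Complex.add_re, Complex.one_re, Complex.add_im, Complex.one_im, zero_add]
  nlinarith

/-- The sum of the elements of a finite multiplicatively closed set of units of `ℂ` containing
`1` ... has nonnegative real part (it is `0` or `1`). -/
theorem re_sum_nonneg_of_mul_closed (R : Finset ℂˣ)
    (hmul : ∀ c ∈ R, ∀ c' ∈ R, c * c' ∈ R) (hinv : ∀ c ∈ R, c⁻¹ ∈ R) :
    0 ≤ (∑ c ∈ R, (c : ℂ)).re := by
  classical
  by_cases h1 : ∀ c ∈ R, c = 1
  · have : ∑ c ∈ R, (c : ℂ) = ∑ c ∈ R, (1 : ℂ) :=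
      Finset.sum_congr rfl fun c hc => by rw [h1 c hc, Units.val_one]
    rw [this, Finset.sum_const, nsmul_eq_mul, mul_one, Complex.natCast_re]
    exact Nat.cast_nonneg _
  · rw [not_forall] at h1
    obtain ⟨c₀, h1⟩ := h1
    rw [Classical.not_imp] at h1
    obtain ⟨hc₀, hne⟩ := h1
    have hsum : (c₀ : ℂ) * ∑ c ∈ R, (c : ℂ) = ∑ c ∈ R, (c : ℂ) := by
      rw [Finset.mul_sum]
      refine Finset.sum_nbij' (fun c => c₀ * c) (fun c => c₀⁻¹ * c) ?_ ?_ ?_ ?_ ?_
      · intro c hc; exact hmul _ hc₀ _ hc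
      · intro c hc; exact hmul _ (hinv _ hc₀) _ hc
      · intro c _; simp
      · intro c _; simp
      · intro c _; simp
    have hz : ((c₀ : ℂ) - 1) * ∑ c ∈ R, (c : ℂ) = 0 := by
      rw [sub_mul, hsum, one_mul, sub_self]
    have hne' : (c₀ : ℂ) - 1 ≠ 0 := by
      intro hh
      apply hne
      apply Units.ext
      rw [Units.val_one]
      exact sub_eq_zero.mp hh
    rcases mul_eq_zero.mp hz with hh | hh
    · exact absurd hh hne'
    · rw [hh]; simp

end Fermat.Agent.S48.H488
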