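import Mathlib
import Fermat.Prelude.Def_GaloisRep_Residual
import Fermat.Prelude.Def_Deformations_MatrixRepresentation
import Fermat.Agent.Lib.Cheb.SpecQ
import Fermat.Agent.S48.H488.IrredAlg
import Fermat.Agent.S48.H488.IrredAux

/-!
# S48, piece P7: irreducibility of the Deligne–Serre representation (helper488)

Input: the client form of the Chebotarev density theorem (`SpecQ.ChebDensityStatement`, row CHEB
Tier 3) and a Rankin-type bound in finite-sum form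

  `∑_{p ∈ T} ‖a p‖ ^ 2 p ^ (-s) ≤ κ log (1 / (s - 1)) + C`   (`T` finite set of primes `∤ N`),

with ANY constant `κ < 2` (Rankin gives `κ = 1`).

Output: a finite-level `ρ : Gal(ℚ̄/ℚ) →* GL₂(ℂ)` whose Frobenius traces at the primes `p ∤ N`
are the `a p` is irreducible.

Proof: otherwise `tr ρ = χ₁ + χ₂` for two characters of finite order, `‖a p‖ ^ 2 = ‖1 + ψ(Frob_p)‖ ^ 2`
with `ψ = χ₁ / χ₂`, and by Chebotarev the left-hand side of the Rankin bound is at least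
`(mean of ‖1 + c‖ ^ 2 over c ∈ im ψ - ε) log (1 / (s - 1))`, where the mean is `2` or `4`.
No Kronecker–Weber, no Dirichlet `L`-functions.
-/

set_option autoImplicit false

namespace Fermat.Agent.S48.H488

open Fermat.Agent.Lib.Cheb.Spec Fermat.Agent.Lib.Cheb.SpecQ

/-- Rankin-type upper bound, finite-sum form, for `s` close to `1`. -/
def RankinBound (N : ℕ) (a : ℕ → ℂ) (κ : ℝ) : Prop :=
  ∃ C δ : ℝ, 0 < δ ∧ ∀ s : ℝ, 1 < s → s < 1 + δ → ∀ T : Finset ℕ,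
    (∀ p ∈ T, p.Prime ∧ ¬ p ∣ N) →
    ∑ p ∈ T, ‖a p‖ ^ 2 * (p : ℝ) ^ (-s) ≤ κ * Real.log (1 / (s - 1)) + C

/-- Abstract density contradiction: finitely many pairwise "disjoint" sets of primes `X t`
(`t ∈ V`) on which `‖a p‖ ^ 2 = t`, of lower densities `d t` with `∑ t * d t ≥ 2`, contradict a
Rankin bound with constant `κ < 2`. -/
theorem false_of_density (a : ℕ → ℂ) (N : ℕ) (κ : ℝ) (hκ : κ < 2) (hR : RankinBound N a κ)
    (V : Finset ℝ) (hV : ∀ t ∈ V, 0 ≤ t) (X : ℝ → Set ℕ) (d : ℝ → ℝ)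
    (hX : ∀ t ∈ V, ∀ p ∈ X t, p.Prime ∧ ¬ p ∣ N ∧ ‖a p‖ ^ 2 = t)
    (hd : ∀ t ∈ V, HasLowerDensity (X t) (d t))
    (hsum : 2 ≤ ∑ t ∈ V, t * d t) : False := by
  classical
  obtain ⟨C, δR, hδR, hRb⟩ := hR
  set B : ℝ := ∑ t ∈ V, t with hB
  have hB0 : 0 ≤ B := Finset.sum_nonneg hV
  have hκ' : 0 < 2 - κ := by linarith
  set ε : ℝ := (2 - κ) / (2 * (B + 1)) with hε
  have hεpos : 0 < ε := by positivity
  have hεB : ε * B ≤ (2 - κ) / 2 := by
    rw [hε, div_mul_eq_mul_div, div_le_div_iff₀ (by positivity) (by norm_num)]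
    nlinarith
  have h1 : ∀ t : ℝ, ∃ δ : ℝ, 0 < δ ∧ (t ∈ V → ∀ s : ℝ, 1 < s → s < 1 + δ →
      ∃ T : Finset ℕ, (∀ p ∈ T, p ∈ X t) ∧
        (d t - ε) * Real.log (1 / (s - 1)) ≤ ∑ p ∈ T, (p : ℝ) ^ (-s)) := by
    intro t
    by_cases ht : t ∈ V
    · obtain ⟨δ, hδ, h⟩ := hd t ht ε hεpos
      exact ⟨δ, hδ, fun _ => h⟩
    · exact ⟨1, one_pos, fun h => absurd h ht⟩
  choose δf hδf0 hδf using h1
  obtain ⟨δ₀, hδ₀pos, hδ₀R, hδ₀V⟩ : ∃ δ₀ : ℝ, 0 < δ₀ ∧ δ₀ ≤ δR ∧ ∀ t ∈ V, δ₀ ≤ δf t := by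
    rcases V.eq_empty_or_nonempty with hVe | hVne
    · exact ⟨δR, hδR, le_rfl, by simp [hVe]⟩
    · obtain ⟨t₀, ht₀, hmin⟩ := Finset.exists_min_image V δf hVne
      exact ⟨min δR (δf t₀), lt_min hδR (hδf0 t₀), min_le_left _ _,
        fun t ht => (min_le_right _ _).trans (hmin t ht)⟩
  set M : ℝ := 2 * |C| / (2 - κ) + 1 with hM
  have hM1 : 1 ≤ M := by
    have : 0 ≤ 2 * |C| / (2 - κ) := by positivity
    linarith
  set u : ℝ := min (δ₀ / 2) (Real.exp (-M)) with hu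
  have hu0 : 0 < u := lt_min (by positivity) (Real.exp_pos _)
  have huδ : u < δ₀ := (min_le_left _ _).trans_lt (by linarith)
  have hue : u ≤ Real.exp (-M) := min_le_right _ _
  have hs1 : 1 < 1 + u := by linarith
  have hsu : (1 + u) - 1 = u := by ring
  set Lg : ℝ := Real.log (1 / ((1 + u) - 1)) with hLgdef
  have hLg : M ≤ Lg := by
    rw [hLgdef, hsu, one_div, Real.log_inv]
    have := Real.log_le_log hu0 hue
    rw [Real.log_exp] at this
    linarith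
  have hLgpos : 0 < Lg := by linarith
  have h2 : ∀ t : ℝ, ∃ T : Finset ℕ, t ∈ V → ((∀ p ∈ T, p ∈ X t) ∧
      (d t - ε) * Lg ≤ ∑ p ∈ T, (p : ℝ) ^ (-(1 + u))) := by
    intro t
    by_cases ht : t ∈ V
    · obtain ⟨T, hT1, hT2⟩ := hδf t ht (1 + u) hs1 (by linarith [hδ₀V t ht])
      exact ⟨T, fun _ => ⟨hT1, hT2⟩⟩
    · exact ⟨∅, fun h => absurd h ht⟩
  choose Tf hTf using h2
  have hdisj : (V : Set ℝ).PairwiseDisjoint Tf := by
    intro t ht t' ht' hne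
    rw [Function.onFun, Finset.disjoint_left]
    intro p hp hp'
    have h1 := (hX t ht p ((hTf t ht).1 p hp)).2.2
    have h2 := (hX t' ht' p ((hTf t' ht').1 p hp')).2.2
    exact hne (h1.symm.trans h2)
  have hT : ∀ p ∈ V.biUnion Tf, p.Prime ∧ ¬ p ∣ N := by
    intro p hp
    rw [Finset.mem_biUnion] at hp
    obtain ⟨t, ht, hpt⟩ := hp
    have := hX t ht p ((hTf t ht).1 p hpt)
    exact ⟨this.1, this.2.1⟩
  have hup := hRb (1 + u) hs1 (by linarith) (V.biUnion Tf) hT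
  rw [Finset.sum_biUnion hdisj] at hup
  have hlow : ∑ t ∈ V, t * ((d t - ε) * Lg) ≤
      ∑ t ∈ V, ∑ p ∈ Tf t, ‖a p‖ ^ 2 * (p : ℝ) ^ (-(1 + u)) := by
    apply Finset.sum_le_sum
    intro t ht
    have h1 : ∑ p ∈ Tf t, ‖a p‖ ^ 2 * (p : ℝ) ^ (-(1 + u)) =
        t * ∑ p ∈ Tf t, (p : ℝ) ^ (-(1 + u)) := by
      rw [Finset.mul_sum]
      apply Finset.sum_congr rfl
      intro p hp
      rw [(hX t ht p ((hTf t ht).1 p hp)).2.2]
    rw [h1]
    exact mul_le_mul_of_nonneg_left (hTf t ht).2 (hV t ht)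
  have hcalc : ∑ t ∈ V, t * ((d t - ε) * Lg) = ((∑ t ∈ V, t * d t) - ε * B) * Lg := by
    rw [hB, Finset.mul_sum, ← Finset.sum_sub_distrib, Finset.sum_mul]
    apply Finset.sum_congr rfl
    intro t _
    ring
  have h3 : (2 - ε * B) * Lg ≤ κ * Lg + C := by
    calc (2 - ε * B) * Lg ≤ ((∑ t ∈ V, t * d t) - ε * B) * Lg := by
          apply mul_le_mul_of_nonneg_right _ hLgpos.le
          linarith
      _ = ∑ t ∈ V, t * ((d t - ε) * Lg) := hcalc.symm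
      _ ≤ _ := hlow
      _ ≤ _ := hup
  have h4 : (2 - κ) / 2 * Lg ≤ |C| := by
    have := le_abs_self C
    nlinarith
  have h5 : (2 - κ) / 2 * M ≤ (2 - κ) / 2 * Lg :=
    mul_le_mul_of_nonneg_left hLg (by linarith)
  have h6 : (2 - κ) / 2 * M = |C| + (2 - κ) / 2 := by
    rw [hM]
    field_simp
  linarith

/-- **P7, irreducibility.**  Let `ρ : Gal(ℚ̄/ℚ) →* GL₂(ℂ)` factor through a finite level and
have Frobenius traces `a p` at the primes `p ∤ N`.  If the `a p` satisfy a Rankin bound with a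
constant `κ < 2`, then `ρ` is irreducible (given the Chebotarev density theorem). -/
theorem irreducible_of_rankinBound (hcheb : ChebDensityStatement) (N : ℕ) (hN : N ≠ 0)
    (a : ℕ → ℂ) (ρ : GQ →* GL (Fin 2) ℂ) (hfin : GaloisFactorsThroughFiniteLevel ρ)
    (htr : ∀ p : ℕ, p.Prime → ¬ p ∣ N → ∀ A : ValuationSubring Qb, A.LiesOverPrime p →
      ∀ σ : GQ, A.IsFrobeniusAt σ p →
        ((ρ σ : GL (Fin 2) ℂ) : Matrix (Fin 2) (Fin 2) ℂ).trace = a p)
    (κ : ℝ) (hκ : κ < 2) (hR : RankinBound N a κ) :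
    (Deformation.matrixRepresentation ρ).IsIrreducible := by
  classical
  by_contra hirr
  obtain ⟨χ₁, χ₂, hker, htrace⟩ := exists_characters_of_not_irreducible ρ hirr
  have hρfin := finite_range_of_finiteLevel ρ hfin
  -- every element has finite order
  have hpow : ∀ g : GQ, ∃ m : ℕ, m ≠ 0 ∧ ρ (g ^ m) = 1 := by
    intro g
    have hfin' : Finite ρ.range := by
      have : Finite (Set.range ρ) := hρfin.to_subtype
      exact this
    have h1 := isOfFinOrder_of_finite (⟨ρ g, g, rfl⟩ : ρ.range)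
    obtain ⟨m, hm, hm1⟩ := h1.exists_pow_eq_one
    refine ⟨m, hm.ne', ?_⟩
    have := congrArg Subtype.val hm1
    rw [map_pow]
    simpa using this
  have hn1 : ∀ g, ‖(χ₁ g : ℂ)‖ = 1 := by
    intro g
    obtain ⟨m, hm, hm1⟩ := hpow g
    have h1 := (hker _ hm1).1
    rw [map_pow] at h1
    have h2 : (χ₁ g : ℂ) ^ m = 1 := by
      rw [← Units.val_pow_eq_pow_val, h1, Units.val_one]
    exact Complex.norm_eq_one_of_pow_eq_one h2 hm
  have hn2 : ∀ g, ‖(χ₂ g : ℂ)‖ = 1 := by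
    intro g
    obtain ⟨m, hm, hm1⟩ := hpow g
    have h1 := (hker _ hm1).2
    rw [map_pow] at h1
    have h2 : (χ₂ g : ℂ) ^ m = 1 := by
      rw [← Units.val_pow_eq_pow_val, h1, Units.val_one]
    exact Complex.norm_eq_one_of_pow_eq_one h2 hm
  let ψ : GQ →* ℂˣ := χ₁ / χ₂
  have hψ : ∀ g, ψ g = χ₁ g / χ₂ g := fun g => rfl
  have hψfin : GaloisFactorsThroughFiniteLevel ψ := by
    obtain ⟨L, hL, h⟩ := hfin
    refine ⟨L, hL, fun σ hσ => ?_⟩
    have := hker σ (h σ hσ)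
    rw [hψ, this.1, this.2, div_one]
  have hψrange := finite_range_of_finiteLevel ψ hψfin
  obtain ⟨E, hE, hψE⟩ := hψfin
  set R : Finset ℂˣ := hψrange.toFinset with hRdef
  have hRmem : ∀ c, c ∈ R ↔ ∃ g, ψ g = c := by
    intro c
    rw [hRdef, Set.Finite.mem_toFinset, Set.mem_range]
  have hRnorm : ∀ c ∈ R, ‖(c : ℂ)‖ = 1 := by
    intro c hc
    obtain ⟨g, rfl⟩ := (hRmem c).mp hc
    rw [hψ, Units.val_div_eq_div_val, norm_div, hn1, hn2, div_one]
  have hRcoe : (R : Set ℂˣ) = Set.range ψ := by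
    rw [hRdef, Set.Finite.coe_toFinset]
  have hR1 : (1 : ℂˣ) ∈ R := (hRmem 1).mpr ⟨1, map_one ψ⟩
  have hRcard : 0 < R.card := Finset.card_pos.mpr ⟨1, hR1⟩
  let w : ℂˣ → ℝ := fun c => ‖1 + (c : ℂ)‖ ^ 2
  set V : Finset ℝ := R.image w with hVdef
  let Cs : ℝ → Set ℂˣ := fun t => {c | w c = t}
  let X : ℝ → Set ℕ := fun t => frobPrimesHom ψ (Cs t) N.primeFactors
  let d : ℝ → ℝ := fun t =>
    (Nat.card ↥(Cs t ∩ Set.range ψ) : ℝ) / (Nat.card ↥(Set.range ψ) : ℝ)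
  have hcard1 : Nat.card ↥(Set.range ψ) = R.card := by
    rw [← hRcoe, Nat.card_coe_set_eq, Set.ncard_coe_finset]
  have hcard2 : ∀ t, Nat.card ↥(Cs t ∩ Set.range ψ) = (R.filter (fun c => w c = t)).card := by
    intro t
    have : Cs t ∩ Set.range ψ = ((R.filter (fun c => w c = t) : Finset ℂˣ) : Set ℂˣ) := by
      ext c
      simp only [Set.mem_inter_iff, Finset.coe_filter, Set.mem_ofPred_eq, ← hRcoe,
        Finset.mem_coe, Cs]
      tauto
    rw [this, Nat.card_coe_set_eq, Set.ncard_coe_finset]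
  refine false_of_density a N κ hκ hR V ?_ X d ?_ ?_ ?_
  · intro t ht
    rw [hVdef, Finset.mem_image] at ht
    obtain ⟨c, _, rfl⟩ := ht
    positivity
  · intro t _ p hp
    obtain ⟨hp1, hp2, A, τ, hA, hτ, _, hC⟩ := hp
    have hpN : ¬ p ∣ N := fun hdiv => hp2 (Nat.mem_primeFactors.mpr ⟨hp1, hdiv, hN⟩)
    refine ⟨hp1, hpN, ?_⟩
    have h1 := htr p hp1 hpN A hA τ hτ
    rw [← h1, htrace τ]
    have h2 : w (ψ τ) = t := hC
    rw [← h2]
    show _ = ‖1 + ((ψ τ : ℂˣ) : ℂ)‖ ^ 2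
    rw [hψ, Units.val_div_eq_div_val]
    have hne : (χ₂ τ : ℂ) ≠ 0 := Units.ne_zero _
    have h3 : (1 : ℂ) + (χ₁ τ : ℂ) / (χ₂ τ : ℂ) = ((χ₁ τ : ℂ) + (χ₂ τ : ℂ)) / (χ₂ τ : ℂ) := by
      field_simp
      ring
    rw [h3, norm_div, hn2, div_one]
  · intro t _
    exact hcheb ℂˣ ψ E hE hψE (Cs t) N.primeFactors
  · -- the mean of `w` over `R` is at least `2`
    have hRpos : (0 : ℝ) < R.card := by exact_mod_cast hRcard
    have hsumw : ∑ t ∈ V, t * d t = (∑ c ∈ R, w c) / R.card := by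
      have h1 : ∀ t ∈ V, t * d t = (∑ c ∈ R.filter (fun c => w c = t), w c) / R.card := by
        intro t _
        have h2 : ∑ c ∈ R.filter (fun c => w c = t), w c =
            (R.filter (fun c => w c = t)).card * t := by
          rw [Finset.sum_congr rfl (fun c hc => (Finset.mem_filter.mp hc).2),
            Finset.sum_const, nsmul_eq_mul]
        show t * ((Nat.card ↥(Cs t ∩ Set.range ψ) : ℝ) / (Nat.card ↥(Set.range ψ) : ℝ)) = _
        rw [h2, hcard1, hcard2]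
        ring
      rw [Finset.sum_congr rfl h1, ← Finset.sum_div]
      congr 1
      exact Finset.sum_fiberwise_of_maps_to (fun c hc => Finset.mem_image_of_mem w hc) _
    rw [hsumw, le_div_iff₀ hRpos]
    have hw : ∀ c ∈ R, w c = 2 + 2 * (c : ℂ).re := fun c hc =>
      norm_one_add_sq _ (hRnorm c hc)
    rw [Finset.sum_congr rfl hw, Finset.sum_add_distrib, Finset.sum_const, nsmul_eq_mul,
      ← Finset.mul_sum]
    have hre : 0 ≤ (∑ c ∈ R, (c : ℂ)).re := by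
      apply re_sum_nonneg_of_mul_closed
      · intro c hc c' hc'
        obtain ⟨g, rfl⟩ := (hRmem c).mp hc
        obtain ⟨g', rfl⟩ := (hRmem c').mp hc'
        exact (hRmem _).mpr ⟨g * g', map_mul ψ g g'⟩
      · intro c hc
        obtain ⟨g, rfl⟩ := (hRmem c).mp hc
        exact (hRmem _).mpr ⟨g⁻¹, map_inv ψ g⟩
    rw [Complex.re_sum] at hre
    nlinarith

/-- Adapter: a bound `∑_{p ∈ P} ‖a p‖ ^ 2 p ^ (-s) ≤ log (1 / (s - 1)) + C` on `1 < s ≤ 2`
(the shape of `Fermat.Agent.S48.H308.rankin_bound`) is a `RankinBound` with `κ = 1`. -/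
theorem rankinBound_one_of_forall (N : ℕ) (a : ℕ → ℂ)
    (h : ∃ C : ℝ, ∀ s : ℝ, 1 < s → s ≤ 2 → ∀ P : Finset ℕ, (∀ p ∈ P, p.Prime ∧ ¬ p ∣ N) →
      ∑ p ∈ P, ‖a p‖ ^ 2 * (p : ℝ) ^ (-s) ≤ Real.log (1 / (s - 1)) + C) :
    RankinBound N a 1 := by
  obtain ⟨C, hC⟩ := h
  refine ⟨C, 1, one_pos, fun s hs hs2 T hT => ?_⟩
  rw [one_mul]
  exact hC s hs (by linarith) T hT

/-- **P7 in the shape of the frozen statement S48.**  A finite-level `ρ` with the Frobenius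
traces `qCoeff f p` (as in the conclusion of S48) is irreducible, given the Rankin bound for `f`
(piece P4, e.g. `H308.rankin_bound`) and the Chebotarev density theorem (row CHEB Tier 3). -/
theorem irreducible_of_rankin (hcheb : ChebDensityStatement) (N : ℕ) [NeZero N]
    (a : ℕ → ℂ) (d : ℕ → ℂ)
    (hRankin : ∃ C : ℝ, ∀ s : ℝ, 1 < s → s ≤ 2 → ∀ P : Finset ℕ,
      (∀ p ∈ P, p.Prime ∧ ¬ p ∣ N) →
      ∑ p ∈ P, ‖a p‖ ^ 2 * (p : ℝ) ^ (-s) ≤ Real.log (1 / (s - 1)) + C)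
    (ρ : GQ →* GL (Fin 2) ℂ) (hfin : GaloisFactorsThroughFiniteLevel ρ)
    (hρ : ∀ p : ℕ, p.Prime → ¬ p ∣ N →
      ∀ A : ValuationSubring (AlgebraicClosure ℚ), A.LiesOverPrime p →
        (∀ σ ∈ A.inertiaSubgroupIn ℚ, ρ σ = 1) ∧
        ∀ σ : GQ, A.IsFrobeniusAt σ p →
          ((ρ σ : GL (Fin 2) ℂ) : Matrix (Fin 2) (Fin 2) ℂ).trace = a p ∧
          ((ρ σ : GL (Fin 2) ℂ) : Matrix (Fin 2) (Fin 2) ℂ).det = d p) :
    (Deformation.matrixRepresentation ρ).IsIrreducible :=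
  irreducible_of_rankinBound hcheb N (NeZero.ne N) a ρ hfin
    (fun p hp hpN A hA σ hσ => ((hρ p hp hpN A hA).2 σ hσ).1) 1 (by norm_num)
    (rankinBound_one_of_forall N a hRankin)

end Fermat.Agent.S48.H488
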