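import Fermat.Agent.S48.Top.Spec
import Fermat.Agent.S48.H488.Irred

/-!
# S48, glue piece IRR in the exact shape of `Top/Spec.lean` (helper488)
-/

set_option autoImplicit false

namespace Fermat.Agent.S48.H488

open Fermat.Agent.Lib.Cheb.Spec Fermat.Agent.Lib.Cheb.SpecQ

/-- (IRR) `RankinStatement → ChebDensityStatement → IrreducibleStatement`. -/
theorem irreduciblePiece : Fermat.Agent.S48.Top.IrreduciblePiece := by
  intro hR hcheb N _ ε f hf ρ hfin hatt
  exact irreducible_of_rankin hcheb N (fun p => ModularFormClass.qCoeff f p)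
    (fun p => ε (p : ZMod N)) (hR N ε f hf) ρ hfin hatt

end Fermat.Agent.S48.H488
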