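import Fermat.Agent.S29.H872.Cheb
import Fermat.Agent.S29.Orb
import Fermat.Agent.S48.H488.EpsChar

/-!
# S48, RES layer A for a general determinant character (helper488)

Port of the landed S29 glue (`Fermat.Agent.S29.H872.exists_residualGaloisRep_of_module`) with the
mod `p` cyclotomic character replaced by an ARBITRARY character `d : G_ℚ →* F` of finite level.

* `exists_residualGaloisRep_of_module_char` : a nonzero finite dimensional `F[G_ℚ]`-module of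
  finite level (`F` algebraically closed), unramified outside `S`, on which every Frobenius at
  `ℓ ∉ S` satisfies `σ² - c(ℓ) σ + e(ℓ) = 0`, where `e(ℓ) = d(Frob_ℓ)`, gives a
  `ResidualGaloisRep F`, unramified outside `S`, with Frobenius characteristic polynomials
  `X² - c(ℓ) X + e(ℓ)`.
* `exists_residualGaloisRep_of_smooth_char` : the same for a nonzero SMOOTH module (no finiteness).
-/

set_option autoImplicit false

namespace Fermat.Agent.S48.H488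

open Polynomial Fermat.Agent.Lib.Cheb.Spec Fermat.Agent.S29.H872

/-- **Layer A, finite dimensional module, general determinant character.** -/
theorem exists_residualGaloisRep_of_module_char
    {F : Type} [Field F] [IsAlgClosed F]
    {M : Type} [AddCommGroup M] [Module F M] [FiniteDimensional F M] [Nontrivial M]
    (r : GQ →* Module.End F M) (hfin : GaloisFactorsThroughFiniteLevel r)
    (d : GQ →* F) (hdfin : GaloisFactorsThroughFiniteLevel d)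
    (S : Finset ℕ) (c e : ℕ → F)
    (hdunr : ∀ ℓ : ℕ, ℓ.Prime → ℓ ∉ S → ∀ A : ValuationSubring Qb,
      A.LiesOverPrime ℓ → ∀ σ ∈ A.inertiaSubgroupIn ℚ, d σ = 1)
    (hdfrob : ∀ ℓ : ℕ, ℓ.Prime → ℓ ∉ S → ∀ A : ValuationSubring Qb,
      A.LiesOverPrime ℓ → ∀ σ : GQ, A.IsFrobeniusAt σ ℓ → d σ = e ℓ)
    (hunr : ∀ ℓ : ℕ, ℓ.Prime → ℓ ∉ S → ∀ A : ValuationSubring Qb,
      A.LiesOverPrime ℓ → ∀ σ ∈ A.inertiaSubgroupIn ℚ, r σ = 1)
    (hES : ∀ ℓ : ℕ, ℓ.Prime → ℓ ∉ S → ∀ A : ValuationSubring Qb,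
      A.LiesOverPrime ℓ → ∀ σ : GQ, A.IsFrobeniusAt σ ℓ →
        r σ * r σ = c ℓ • r σ - e ℓ • 1) :
    ∃ ρ : ResidualGaloisRep F,
      (∀ ℓ : ℕ, ℓ.Prime → ℓ ∉ S → ρ.IsUnramifiedAt ℓ) ∧
      ∀ ℓ : ℕ, ℓ.Prime → ℓ ∉ S → ∀ A : ValuationSubring Qb,
        A.LiesOverPrime ℓ → ∀ σ : GQ, A.IsFrobeniusAt σ ℓ →
          LinearMap.charpoly (ρ.ρ σ) = X ^ 2 - C (c ℓ) * X + C (e ℓ) := by
  classical
  obtain ⟨L₀, hL₀fd, hL₀⟩ := hfin
  obtain ⟨L₁, hL₁fd, hL₁⟩ := hdfin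
  have := hL₀fd
  have := hL₁fd
  obtain ⟨s₀, hs₀⟩ := exists_finset_level L₀
  obtain ⟨s₁, hs₁⟩ := exists_finset_level L₁
  -- the quadratic relation for every element of the Galois group
  have hall : ∀ σ : GQ, ∃ a' : F, r σ * r σ = a' • r σ - d σ • 1 := by
    intro σ
    obtain ⟨q, A, τ, j, hq, hqS, hA, hτ, hagree⟩ := weakCheb (s₀ ∪ s₁) σ S
    have h0 : ∀ x ∈ L₀, (τ ^ j) x = σ x :=
      hs₀ _ _ (fun x hx => hagree x (Finset.mem_union_left _ hx))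
    have h1 : ∀ x ∈ L₁, (τ ^ j) x = σ x :=
      hs₁ _ _ (fun x hx => hagree x (Finset.mem_union_right _ hx))
    have hfix : ∀ x : Qb, (τ ^ j) x = σ x → (σ⁻¹ * τ ^ j) x = x := by
      intro x hx
      rw [AlgEquiv.mul_apply, hx]
      exact σ.symm_apply_apply x
    have hr : r σ = r τ ^ j := by
      have h1 : r (σ⁻¹ * τ ^ j) = 1 := hL₀ _ (fun x hx => hfix x (h0 x hx))
      have h2 : r σ * r (σ⁻¹ * τ ^ j) = r τ ^ j := by
        rw [← map_mul, mul_inv_cancel_left, map_pow]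
      rw [h1, mul_one] at h2
      exact h2
    have hd : d σ = d τ ^ j := by
      have h3 : d (σ⁻¹ * τ ^ j) = 1 := hL₁ _ (fun x hx => hfix x (h1 x hx))
      have h2 : d σ * d (σ⁻¹ * τ ^ j) = d τ ^ j := by
        rw [← map_mul, mul_inv_cancel_left, map_pow]
      rw [h3, mul_one] at h2
      exact h2
    have hτrel := hES q hq hqS A hA τ hτ
    have hdτ : d τ = e q := hdfrob q hq hqS A hA τ hτ
    obtain ⟨a', ha'⟩ := exists_pow_rel hτrel j
    exact ⟨a', by rw [hr, hd, hdτ]; exact ha'⟩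
  choose a ha using hall
  obtain ⟨V, iA, iM, iFin, ρ, hfr, htriv, hchar⟩ := exists_two_dim r d a ha
  have hlevel : GaloisFactorsThroughFiniteLevel ρ := by
    refine ⟨L₀ ⊔ L₁, inferInstance, fun σ hσ => htriv σ (hL₀ σ fun x hx => hσ x ?_)
      (hL₁ σ fun x hx => hσ x ?_)⟩
    · exact (le_sup_left : L₀ ≤ _) hx
    · exact (le_sup_right : L₁ ≤ _) hx
  refine ⟨@ResidualGaloisRep.mk F _ V iA iM hfr ρ hlevel, ?_, ?_⟩
  · intro ℓ hℓ hℓS A hA σ hσ
    exact htriv σ (hunr ℓ hℓ hℓS A hA σ hσ) (hdunr ℓ hℓ hℓS A hA σ hσ)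
  · intro ℓ hℓ hℓS A hA σ hσ
    have hdσ : d σ = e ℓ := hdfrob ℓ hℓ hℓS A hA σ hσ
    have h := hchar σ (c ℓ) (by rw [hdσ]; exact hES ℓ hℓ hℓS A hA σ hσ)
    rw [hdσ] at h
    exact h

/-- **Layer A, smooth module, general determinant character.**  No finiteness assumption on the
module: a nonzero smooth `F[G_ℚ]`-module contains a nonzero finite dimensional stable subspace of
finite level (S29 piece `Orb`). -/
theorem exists_residualGaloisRep_of_smooth_char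
    {F : Type} [Field F] [IsAlgClosed F]
    {M : Type} [AddCommGroup M] [Module F M] [Nontrivial M]
    (r : GQ →* Module.End F M) (hsm : Fermat.Agent.S29.IsSmoothRep r)
    (d : GQ →* F) (hdfin : GaloisFactorsThroughFiniteLevel d)
    (S : Finset ℕ) (c e : ℕ → F)
    (hdunr : ∀ ℓ : ℕ, ℓ.Prime → ℓ ∉ S → ∀ A : ValuationSubring Qb,
      A.LiesOverPrime ℓ → ∀ σ ∈ A.inertiaSubgroupIn ℚ, d σ = 1)
    (hdfrob : ∀ ℓ : ℕ, ℓ.Prime → ℓ ∉ S → ∀ A : ValuationSubring Qb,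
      A.LiesOverPrime ℓ → ∀ σ : GQ, A.IsFrobeniusAt σ ℓ → d σ = e ℓ)
    (hunr : ∀ ℓ : ℕ, ℓ.Prime → ℓ ∉ S → ∀ A : ValuationSubring Qb,
      A.LiesOverPrime ℓ → ∀ σ ∈ A.inertiaSubgroupIn ℚ, r σ = 1)
    (hES : ∀ ℓ : ℕ, ℓ.Prime → ℓ ∉ S → ∀ A : ValuationSubring Qb,
      A.LiesOverPrime ℓ → ∀ σ : GQ, A.IsFrobeniusAt σ ℓ →
        r σ * r σ = c ℓ • r σ - e ℓ • 1) :
    ∃ ρ : ResidualGaloisRep F,
      (∀ ℓ : ℕ, ℓ.Prime → ℓ ∉ S → ρ.IsUnramifiedAt ℓ) ∧
      ∀ ℓ : ℕ, ℓ.Prime → ℓ ∉ S → ∀ A : ValuationSubring Qb,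
        A.LiesOverPrime ℓ → ∀ σ : GQ, A.IsFrobeniusAt σ ℓ →
          LinearMap.charpoly (ρ.ρ σ) = X ^ 2 - C (c ℓ) * X + C (e ℓ) := by
  classical
  obtain ⟨W, hW0, hWfin, hWst, L, hL, hWL⟩ :=
    Fermat.Agent.S29.exists_finite_stable_submodule r hsm
  have : Nontrivial W := Submodule.nontrivial_iff_ne_bot.mpr hW0
  have : FiniteDimensional F W := hWfin
  have hst : Stable r W := fun g x hx => hWst g x hx
  refine exists_residualGaloisRep_of_module_char (restrictRep r W hst) ⟨L, hL, fun σ hσ => ?_⟩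
    d hdfin S c e hdunr hdfrob ?_ ?_
  · ext x
    exact hWL σ hσ x x.2
  · intro ℓ hℓ hℓS A hA σ hσ
    exact restrictRep_eq_one r W hst (hunr ℓ hℓ hℓS A hA σ hσ)
  · intro ℓ hℓ hℓS A hA σ hσ
    exact restrictRep_rel r W hst (hES ℓ hℓ hℓS A hA σ hσ)

end Fermat.Agent.S48.H488
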