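import Fermat.Agent.S48.Top.Spec
import Fermat.Agent.S48.H488.LayerA

/-!
# S48, RES layer A: `Top.ResidualStatement` from the module-side statement (helper488)

`FrobModuleStatement` is the exact output expected from TOWER A1 (+ P2): for every large prime
`ℓ`, every ALGEBRAICALLY CLOSED field `F` of characteristic `ℓ` and every `ψ : ℤ̄ → F`, a nonzero
smooth `F[G_ℚ]`-module, unramified outside `Nℓ`, on which every Frobenius at `p ∤ Nℓ` satisfies

  `σ² - ψ(a_p) σ + ψ(ε(p)) = 0`.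

`residual_of_frobModule : FrobModuleStatement → Top.ResidualStatement` (sorry-free): the Galois
character of `ε` (`EpsChar.lean`), layer A for a general determinant character (`LayerA.lean`,
port of the landed S29 glue, CHEB Tier 1 is on main), factorisation of `φ : ℤ̄ → k` through the
algebraically closed field `im φ`, base change.
-/

set_option autoImplicit false

open CongruenceSubgroup
open scoped MatrixGroups

namespace Fermat.Agent.S48.H488

open Polynomial Fermat.Agent.Lib.Cheb.Spec Fermat.Agent.S29.H872 Fermat.Agent.S48.Top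

/-- The module-side hypothesis at `(ℓ, ψ)`: a nonzero smooth `F[G_ℚ]`-module, unramified outside
`N ℓ`, with the Eichler–Shimura relations `σ² - ψ(a_p) σ + ψ(ε(p)) = 0` at `p ∤ N ℓ`. -/
def FrobModuleAt {N : ℕ} [NeZero N] (ε : DirichletCharacter ℂ N) (f : CuspForm (Gamma1 N) 1)
    (ℓ : ℕ) {F : Type} [Field F] (ψ : Zbar →+* F) : Prop :=
  ∃ (M : Type) (_ : AddCommGroup M) (_ : Module F M) (r : GQ →* Module.End F M),
    Nontrivial M ∧ Fermat.Agent.S29.IsSmoothRep r ∧
    (∀ p : ℕ, p.Prime → ¬ p ∣ N * ℓ → ∀ A : ValuationSubring Qb, A.LiesOverPrime p →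
      ∀ σ ∈ A.inertiaSubgroupIn ℚ, r σ = 1) ∧
    ∀ p : ℕ, p.Prime → ¬ p ∣ N * ℓ →
      ∃ a e : Zbar, (a : ℂ) = ModularFormClass.qCoeff f p ∧ (e : ℂ) = ε (p : ZMod N) ∧
        ∀ A : ValuationSubring Qb, A.LiesOverPrime p → ∀ σ : GQ, A.IsFrobeniusAt σ p →
          r σ * r σ = ψ a • r σ - ψ e • 1

/-- **Module-side statement (output of TOWER A1 + P2).** -/
def FrobModuleStatement : Prop :=
  ∀ (N : ℕ) [NeZero N] (ε : DirichletCharacter ℂ N) (f : CuspForm (Gamma1 N) 1),
    IsEigen N ε f → ∃ B : ℕ, ∀ ℓ : ℕ, ℓ.Prime → B < ℓ →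
      ∀ (F : Type) [Field F] [IsAlgClosed F] [CharP F ℓ] (ψ : Zbar →+* F),
        FrobModuleAt ε f ℓ ψ

/-- The values of a Dirichlet character on units are algebraic integers. -/
theorem isIntegral_dirichlet {N : ℕ} [NeZero N] (ε : DirichletCharacter ℂ N) (u : (ZMod N)ˣ) :
    IsIntegral ℤ (ε (u : ZMod N)) := by
  have h1 : u ^ Fintype.card (ZMod N)ˣ = 1 := pow_card_eq_one
  have h2 : (ε (u : ZMod N)) ^ Fintype.card (ZMod N)ˣ = 1 := by
    rw [← map_pow, ← Units.val_pow_eq_pow_val, h1, Units.val_one, map_one]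
  exact IsIntegral.of_pow Fintype.card_pos (h2 ▸ isIntegral_one)

/-- A Dirichlet character as a monoid homomorphism `(ℤ/N)ˣ →* ℤ̄`. -/
noncomputable def epsZbar {N : ℕ} [NeZero N] (ε : DirichletCharacter ℂ N) :
    (ZMod N)ˣ →* Zbar where
  toFun u := ⟨ε (u : ZMod N), isIntegral_dirichlet ε u⟩
  map_one' := Subtype.ext (by simp)
  map_mul' u v := Subtype.ext (by simp)

theorem coe_epsZbar {N : ℕ} [NeZero N] (ε : DirichletCharacter ℂ N) (u : (ZMod N)ˣ) :
    ((epsZbar ε u : Zbar) : ℂ) = ε (u : ZMod N) := rfl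

/-- **RES, layer A.**  The residual representations of `Top.ResidualStatement` exist as soon as
the module-side statement holds. -/
theorem residual_of_frobModule (h : FrobModuleStatement) : ResidualStatement := by
  classical
  intro N _ ε f hf
  obtain ⟨B, hB⟩ := h N ε f hf
  refine ⟨B, fun ℓ hℓ hBℓ k _ _ φ => ?_⟩
  have hN : N ≠ 0 := NeZero.ne N
  have hNℓ : N * ℓ ≠ 0 := Nat.mul_ne_zero hN hℓ.ne_zero
  -- factor `φ` through the algebraically closed field `im φ`
  have hAC := isAlgClosed_imageField hℓ φ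
  let ι : imageField hℓ φ →+* k := (imageField hℓ φ).subtype
  have hchar : CharP (imageField hℓ φ) ℓ := ι.charP ι.injective ℓ
  let ψ : Zbar →+* imageField hℓ φ := toImageField hℓ φ
  have hι : ∀ a, ι (ψ a) = φ a := fun a => coe_toImageField hℓ φ a
  obtain ⟨M, iA, iM, r, iNT, hsm, hunr, hES⟩ := hB ℓ hℓ hBℓ (imageField hℓ φ) ψ
  let S : Finset ℕ := (N * ℓ).primeFactors
  have hS : ∀ p : ℕ, p.Prime → (p ∉ S ↔ ¬ p ∣ N * ℓ) := fun p hp => by
    simp only [S, Nat.mem_primeFactors, not_and, not_not]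
    constructor
    · intro h hd
      exact hNℓ (h hp hd)
    · intro h _ hd
      exact absurd hd h
  have hpN : ∀ p : ℕ, ¬ p ∣ N * ℓ → ¬ p ∣ N := fun p hp hd => hp (Dvd.dvd.mul_right hd ℓ)
  let c : ℕ → imageField hℓ φ := fun p =>
    if h : ∃ a : Zbar, (a : ℂ) = ModularFormClass.qCoeff f p then ψ h.choose else 0
  have hc : ∀ (p : ℕ) (a : Zbar), (a : ℂ) = ModularFormClass.qCoeff f p → c p = ψ a := by
    intro p a ha
    have h : ∃ a : Zbar, (a : ℂ) = ModularFormClass.qCoeff f p := ⟨a, ha⟩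
    simp only [c, dif_pos h]
    congr 1
    exact Subtype.ext (h.choose_spec.trans ha.symm)
  let e : ℕ → imageField hℓ φ := fun p =>
    if h : ∃ a : Zbar, (a : ℂ) = ε (p : ZMod N) then ψ h.choose else 0
  have he : ∀ (p : ℕ) (a : Zbar), (a : ℂ) = ε (p : ZMod N) → e p = ψ a := by
    intro p a ha
    have h : ∃ a : Zbar, (a : ℂ) = ε (p : ZMod N) := ⟨a, ha⟩
    simp only [e, dif_pos h]
    congr 1
    exact Subtype.ext (h.choose_spec.trans ha.symm)
  -- the determinant character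
  let χ : (ZMod N)ˣ →* imageField hℓ φ := (ψ : Zbar →* imageField hℓ φ).comp (epsZbar ε)
  let d : GQ →* imageField hℓ φ := galChar χ
  have hdfrob : ∀ p : ℕ, p.Prime → p ∉ S → ∀ A : ValuationSubring Qb,
      A.LiesOverPrime p → ∀ σ : GQ, A.IsFrobeniusAt σ p → d σ = e p := by
    intro p hp hpS A hA σ hσ
    have hpN' : ¬ p ∣ N := hpN p ((hS p hp).1 hpS)
    have h1 := cycN_frobenius N hp hpN' A hA σ hσ
    have h2 : ((epsZbar ε (cycN N σ) : Zbar) : ℂ) = ε (p : ZMod N) := by
      rw [coe_epsZbar, h1]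
    rw [he p _ h2]
    rfl
  obtain ⟨ρ₀, hρunr, hρchar⟩ := exists_residualGaloisRep_of_smooth_char r hsm d
    (galChar_finiteLevel χ) S c e
    (fun p hp hpS A hA σ hσ =>
      galChar_eq_one_of_mem_inertia χ hp (hpN p ((hS p hp).1 hpS)) A hA σ hσ)
    hdfrob
    (fun p hp hpS => hunr p hp ((hS p hp).1 hpS))
    (fun p hp hpS A hA σ hσ => by
      obtain ⟨a, b, ha, hb, hrel⟩ := hES p hp ((hS p hp).1 hpS)
      rw [hc p a ha, he p b hb]
      exact hrel A hA σ hσ)
  refine ⟨ρ₀.baseChangeAlong ι, fun p hp hpNℓ => ⟨?_, ?_⟩⟩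
  · intro A hA σ hσ
    have h := hρunr p hp ((hS p hp).2 hpNℓ) A hA σ hσ
    let _ : Algebra (imageField hℓ φ) k := ι.toAlgebra
    change (ρ₀.ρ σ).baseChange k = 1
    rw [h, LinearMap.baseChange_one]
  · intro A hA σ hσ
    obtain ⟨a, b, ha, hb, -⟩ := hES p hp hpNℓ
    refine ⟨a, b, ha, hb, ?_⟩
    have h := hρchar p hp ((hS p hp).2 hpNℓ) A hA σ hσ
    rw [hc p a ha, he p b hb] at h
    let _ : Algebra (imageField hℓ φ) k := ι.toAlgebra
    change LinearMap.charpoly ((ρ₀.ρ σ).baseChange k) = _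
    rw [LinearMap.charpoly_baseChange, h]
    simp only [Polynomial.map_add, Polynomial.map_sub, Polynomial.map_mul, Polynomial.map_pow,
      Polynomial.map_X, Polynomial.map_C]
    rw [show (algebraMap (imageField hℓ φ) k) (ψ a) = φ a from hι a,
      show (algebraMap (imageField hℓ φ) k) (ψ b) = φ b from hι b]

end Fermat.Agent.S48.H488
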