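/-
S48 / Tower A1 (helper488) -- leaf VAL (top form), GENERIC part: Gauss normalisation.

`F₀ = ℚ(images of a set gensZ ⊆ ℤ((q)))`, `A ⊆ ℚ̄` a valuation subring over a prime `ℓ`.  Then
every `f ≠ 0` in `ℚ̄ · F₀` is `c · U₁ / U₂` with `c ∈ ℚ̄ˣ` and `U₁, U₂ ∈ A((q))` lying in `ℚ̄ · F₀`
with NONZERO reduction:

    `valG_top_of_gens : H136.ValG F₀ A ⊤`.

No Igusa, no diamond, no core data: `f` lies in `E · F₀` for a finite extension `E/ℚ`
(induction on the field closure), `A ∩ E` is a discrete valuation ring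
(`S18.H602.isDiscreteValuationRing_RE`), and an integral `E`-rational series is a power of the
uniformiser times a series with nonzero reduction (`H248.exists_normalise`).
-/
import Fermat.Agent.S48.H136.ESKV
import Fermat.Agent.S48.H248.IVNormal
import Fermat.Agent.S18.H602.DVR

set_option autoImplicit false

noncomputable section

namespace Fermat.Agent.S48.H488

open ModularCurve HahnSeries AlgebraicCurve IsLocalRing
open Fermat.Agent.S18 (Qb)
open Fermat.Agent.S48.H136 (IsIntG toFG ValG)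
open Fermat.Agent.S48.H248 (IsUnifG IsInt IsRatio ivInc ivRed EcG)
open Fermat.Agent.S18.H602 (RE mem_RE)

/-! ### The uniformiser of `A ∩ E` -/

/-- `A ∩ E` has a uniformiser, for every finite extension `E/ℚ` inside `ℚ̄`. -/
theorem exists_isUnifG (A : ValuationSubring Qb) {ℓ : ℕ} (hℓ : ℓ ≠ 0)
    (hA : (ℓ : Qb) ∈ A.nonunits) (E : IntermediateField ℚ Qb) [FiniteDimensional ℚ E] :
    ∃ w₀ : Qb, IsUnifG A E.toSubfield w₀ := by
  have : IsDiscreteValuationRing (RE A E) :=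
    Fermat.Agent.S18.H602.isDiscreteValuationRing_RE A E hℓ hA
  obtain ⟨ϖ, hϖ⟩ := IsDiscreteValuationRing.exists_irreducible (RE A E)
  have hϖA : ((ϖ : E) : Qb) ∈ A := mem_RE.mp ϖ.2
  have hϖ0 : ((ϖ : E) : Qb) ≠ 0 := by
    intro h0
    apply hϖ.ne_zero
    apply Subtype.ext
    apply Subtype.ext
    simpa using h0
  refine ⟨((ϖ : E) : Qb), hϖA, (ϖ : E).2, hϖ0, ?_, ?_⟩
  · intro hinv
    apply hϖ.not_isUnit
    have hinvE : ((ϖ : E)⁻¹ : E) ∈ RE A E := by
      rw [mem_RE]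
      simpa using hinv
    exact isUnit_iff_exists_inv.mpr ⟨⟨_, hinvE⟩, Subtype.ext (mul_inv_cancel₀ (fun h0 =>
      hϖ0 (by rw [h0]; rfl)))⟩
  · intro c hcA hcE hc0
    set x : RE A E := ⟨⟨c, hcE⟩, mem_RE.mpr hcA⟩ with hx
    have hx0 : x ≠ 0 := by
      intro h0
      apply hc0
      have := congrArg (fun y : RE A E => ((y : E) : Qb)) h0
      simpa [hx] using this
    obtain ⟨n, u, hu⟩ := IsDiscreteValuationRing.eq_unit_mul_pow_irreducible hx0 hϖ
    have hcu : c = (((u : RE A E) : E) : Qb) * ((ϖ : E) : Qb) ^ n := by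
      have := congrArg (fun y : RE A E => ((y : E) : Qb)) hu
      simpa [hx] using this
    have hkey : c * (((ϖ : E) : Qb)⁻¹) ^ n = (((u : RE A E) : E) : Qb) := by
      rw [hcu, inv_pow, mul_assoc, mul_inv_cancel₀ (pow_ne_zero n hϖ0), mul_one]
    refine ⟨n, ?_, ?_⟩
    · rw [hkey]
      exact mem_RE.mp (u : RE A E).2
    rw [hkey]
    have hinv : ((((u⁻¹ : (RE A E)ˣ) : RE A E) : E) : Qb) = ((((u : RE A E) : E) : Qb))⁻¹ := by
      have h2 : ((((u : RE A E) * ((u⁻¹ : (RE A E)ˣ) : RE A E) : RE A E) : E) : Qb) = 1 := by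
        rw [Units.mul_inv]; rfl
      have h3 : (((u : RE A E) : E) : Qb) * ((((u⁻¹ : (RE A E)ˣ) : RE A E) : E) : Qb) = 1 := h2
      exact eq_inv_of_mul_eq_one_right h3
    rw [← hinv]
    exact mem_RE.mp ((u⁻¹ : (RE A E)ˣ) : RE A E).2

/-! ### Monotonicity in `E` -/

section MonoE

variable {K : Type*} [Field K] {A : ValuationSubring K} {E E' : Subfield K}
variable {Ω : Type*} [Field Ω] {ι : Ω →+* LaurentSeries K} {F : Subfield Ω}

theorem isInt_monoE (hE : E ≤ E') {U : LaurentSeries A} (h : IsInt A E ι F U) :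
    IsInt A E' ι F U :=
  ⟨fun n => hE (h.1 n), h.2⟩

theorem isRatio_monoE (hE : E ≤ E') {f : Ω} (h : IsRatio A E ι F f) : IsRatio A E' ι F f := by
  obtain ⟨U₁, U₂, h₁, h₂, h0, hf⟩ := h
  exact ⟨U₁, U₂, isInt_monoE hE h₁, isInt_monoE hE h₂, h0, hf⟩

end MonoE

/-! ### Ratios of integral series in `ℚ̄ · F₀` -/

section Gen

variable (F₀ : IntermediateField ℚ (LaurentSeries ℚ)) (A : ValuationSubring Qb)

/-- `ℚ̄ · F₀` as a subfield of `ℚ̄((q))`. -/
abbrev valF : Subfield (LaurentSeries Qb) := (laurentBaseChange Qb F₀).toSubfield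

/-- The constants, as a ring homomorphism. -/
abbrev valC : Qb →+* LaurentSeries Qb := HahnSeries.C

theorem valC_spec (c : Qb) : (RingHom.id (LaurentSeries Qb)) (valC c) = HahnSeries.C c := rfl

theorem valC_mem (E : Subfield Qb) : ∀ c ∈ E, valC c ∈ valF F₀ := by
  intro c _
  have := (laurentBaseChange Qb F₀).algebraMap_mem c
  rwa [algebraMap_laurentSeries_eq_single] at this

variable {F₀}

theorem isInt_castInt (E : Subfield Qb) {g : LaurentSeries ℤ}
    (hg : coeffMap (Int.castRingHom Qb) g ∈ laurentBaseChange Qb F₀) :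
    IsInt A E (RingHom.id _) (valF F₀) (coeffMap (Int.castRingHom A) g) := by
  refine ⟨fun n => ?_, coeffMap (Int.castRingHom Qb) g, hg, ?_⟩
  · rw [coeffMap_coeff]
    simp
  · show coeffMap (Int.castRingHom Qb) g = ivInc A (coeffMap (Int.castRingHom A) g)
    rw [ivInc, coeffMap_coeffMap]
    exact coeffMap_congr (RingHom.ext_int _ _) g

variable (gensZ : Set (LaurentSeries ℤ))
  (hF₀ : F₀ = IntermediateField.adjoin ℚ ((coeffMap (Int.castRingHom ℚ)) '' gensZ))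

include hF₀ in
theorem isRatio_coeffEmb (E : Subfield Qb) {x : LaurentSeries ℚ} (hx : x ∈ F₀) :
    IsRatio A E (RingHom.id _) (valF F₀) (coeffEmb Qb x) := by
  have hx' : x ∈ IntermediateField.adjoin ℚ ((coeffMap (Int.castRingHom ℚ)) '' gensZ) :=
    hF₀ ▸ hx
  induction hx' using IntermediateField.adjoin_induction with
  | mem y hy =>
    obtain ⟨g, hg, rfl⟩ := hy
    have hmem : coeffMap (Int.castRingHom ℚ) g ∈ F₀ := by
      rw [hF₀]
      exact IntermediateField.subset_adjoin ℚ _ ⟨g, hg, rfl⟩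
    have hemb : coeffEmb Qb (coeffMap (Int.castRingHom ℚ) g) = coeffMap (Int.castRingHom Qb) g := by
      rw [coeffEmb, coeffMap_coeffMap]
      exact coeffMap_congr (RingHom.ext_int _ _) g
    have hg' : coeffMap (Int.castRingHom Qb) g ∈ laurentBaseChange Qb F₀ := by
      rw [← hemb]
      exact coeffEmb_mem_laurentBaseChange Qb hmem
    refine H248.isRatio_of_isInt (isInt_castInt A E hg') ?_
    show coeffEmb Qb (coeffMap (Int.castRingHom ℚ) g) = ivInc A (coeffMap (Int.castRingHom A) g)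
    rw [hemb, ivInc, coeffMap_coeffMap]
    exact coeffMap_congr (RingHom.ext_int _ _) g
  | algebraMap c =>
    have h1 : coeffEmb Qb (algebraMap ℚ (LaurentSeries ℚ) c) = valC ((c : ℚ) : Qb) := by
      rw [algebraMap_laurentSeries_eq_single, coeffEmb, coeffMap_single, eq_ratCast]
      rfl
    rw [h1]
    exact H248.isRatio_cst valC valC_spec (valC_mem F₀ E) (SubfieldClass.ratCast_mem E c)
  | add y z _ _ hy hz =>
    rw [map_add]
    exact (hy (hF₀ ▸ ‹_›)).add (hz (hF₀ ▸ ‹_›))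
  | inv y _ hy =>
    rw [map_inv₀]
    exact (hy (hF₀ ▸ ‹_›)).inv
  | mul y z _ _ hy hz =>
    rw [map_mul]
    exact (hy (hF₀ ▸ ‹_›)).mul (hz (hF₀ ▸ ‹_›))

include hF₀ in
/-- Every element of `ℚ̄ · F₀` is a quotient of two integral series with coefficients in a finite
extension `E/ℚ`. -/
theorem exists_isRatio {f : LaurentSeries Qb} (hf : f ∈ laurentBaseChange Qb F₀) :
    ∃ E : IntermediateField ℚ Qb, FiniteDimensional ℚ E ∧
      IsRatio A E.toSubfield (RingHom.id _) (valF F₀) f := by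
  rw [mem_laurentBaseChange_iff] at hf
  induction hf using Subfield.closure_induction with
  | mem x hx =>
    rcases hx with ⟨c, rfl⟩ | ⟨y, hy, rfl⟩
    · refine ⟨IntermediateField.adjoin ℚ {c},
        IntermediateField.adjoin.finiteDimensional
          ((AlgebraicClosure.isAlgebraic ℚ).isAlgebraic c).isIntegral, ?_⟩
      rw [algebraMap_laurentSeries_eq_single]
      exact H248.isRatio_cst valC valC_spec (valC_mem F₀ _)
        (IntermediateField.mem_adjoin_simple_self ℚ c)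
    · exact ⟨⊥, inferInstance, isRatio_coeffEmb A gensZ hF₀ _ hy⟩
  | one => exact ⟨⊥, inferInstance, H248.isRatio_one⟩
  | add x y _ _ hx hy =>
    obtain ⟨E₁, h₁, r₁⟩ := hx
    obtain ⟨E₂, h₂, r₂⟩ := hy
    exact ⟨E₁ ⊔ E₂, IntermediateField.finiteDimensional_sup E₁ E₂,
      (isRatio_monoE (fun _ h => (le_sup_left : E₁ ≤ E₁ ⊔ E₂) h) r₁).add
        (isRatio_monoE (fun _ h => (le_sup_right : E₂ ≤ E₁ ⊔ E₂) h) r₂)⟩
  | neg x _ hx =>
    obtain ⟨E₁, h₁, r₁⟩ := hx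
    exact ⟨E₁, h₁, r₁.neg⟩
  | inv x _ hx =>
    obtain ⟨E₁, h₁, r₁⟩ := hx
    exact ⟨E₁, h₁, r₁.inv⟩
  | mul x y _ _ hx hy =>
    obtain ⟨E₁, h₁, r₁⟩ := hx
    obtain ⟨E₂, h₂, r₂⟩ := hy
    exact ⟨E₁ ⊔ E₂, IntermediateField.finiteDimensional_sup E₁ E₂,
      (isRatio_monoE (fun _ h => (le_sup_left : E₁ ≤ E₁ ⊔ E₂) h) r₁).mul
        (isRatio_monoE (fun _ h => (le_sup_right : E₂ ≤ E₁ ⊔ E₂) h) r₂)⟩

include hF₀ in
/-- **Gauss normalisation.**  Every nonzero `f ∈ ℚ̄ · F₀` is `c · U₁ / U₂` with `c ≠ 0` and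
`U₁, U₂ ∈ A((q))` lying in `ℚ̄ · F₀` with nonzero reduction. -/
theorem exists_normal_ratio {ℓ : ℕ} (hℓ : ℓ ≠ 0) (hA : (ℓ : Qb) ∈ A.nonunits)
    {f : LaurentSeries Qb} (hf : f ∈ laurentBaseChange Qb F₀) (hf0 : f ≠ 0) :
    ∃ (c : Qb) (U₁ U₂ : LaurentSeries A), c ≠ 0 ∧
      coeffMap A.subtype U₁ ∈ laurentBaseChange Qb F₀ ∧
      coeffMap A.subtype U₂ ∈ laurentBaseChange Qb F₀ ∧
      coeffMap (residue A) U₁ ≠ 0 ∧ coeffMap (residue A) U₂ ≠ 0 ∧
      f * coeffMap A.subtype U₂ = HahnSeries.C c * coeffMap A.subtype U₁ := by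
  obtain ⟨E, hE, U₁, U₂, h₁, h₂, h0, hfU⟩ := exists_isRatio A gensZ hF₀ hf
  have hfU' : f * ivInc A U₂ = ivInc A U₁ := hfU
  obtain ⟨w₀, hw⟩ := exists_isUnifG A hℓ hA E
  have hU₁0 : ivInc A U₁ ≠ 0 := by
    rw [← hfU']
    exact mul_ne_zero hf0 h0
  obtain ⟨k₁, V₁, hV₁, hr₁, hk₁⟩ :=
    H248.exists_normalise valC valC_spec (valC_mem F₀ _) hw h₁ hU₁0
  obtain ⟨k₂, V₂, hV₂, hr₂, hk₂⟩ :=
    H248.exists_normalise valC valC_spec (valC_mem F₀ _) hw h₂ h0
  have hmem : ∀ V : LaurentSeries A, IsInt A E.toSubfield (RingHom.id _) (valF F₀) V →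
      coeffMap A.subtype V ∈ laurentBaseChange Qb F₀ := by
    intro V hV
    obtain ⟨g, hg, hgV⟩ := hV.2
    have : g = coeffMap A.subtype V := hgV
    rw [← this]
    exact hg
  have hw0 : (HahnSeries.C w₀ : LaurentSeries Qb) ≠ 0 := by
    rw [Ne, map_eq_zero]
    exact hw.ne_zero
  refine ⟨w₀ ^ k₁ / w₀ ^ k₂, V₁, V₂, div_ne_zero (pow_ne_zero _ hw.ne_zero)
    (pow_ne_zero _ hw.ne_zero), hmem V₁ hV₁, hmem V₂ hV₂, hr₁, hr₂, ?_⟩
  have e1 : ivInc A U₁ = HahnSeries.C w₀ ^ k₁ * coeffMap A.subtype V₁ := hk₁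
  have e2 : ivInc A U₂ = HahnSeries.C w₀ ^ k₂ * coeffMap A.subtype V₂ := hk₂
  rw [e1, e2] at hfU'
  rw [map_div₀, map_pow, map_pow]
  have hp2 : (HahnSeries.C w₀ : LaurentSeries Qb) ^ k₂ ≠ 0 := pow_ne_zero _ hw0
  field_simp
  rw [← hfU']
  ring

include hF₀ in
/-- **VAL (top form), generic.** -/
theorem valG_top_of_gens {ℓ : ℕ} (hℓ : ℓ ≠ 0) (hA : (ℓ : Qb) ∈ A.nonunits) :
    ValG F₀ A ⊤ := by
  intro f hf
  have hf0 : (f : LaurentSeries Qb) ≠ 0 := fun h => hf (Subtype.ext h)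
  obtain ⟨c, U₁, U₂, hc, hm₁, hm₂, hr₁, hr₂, hfU⟩ :=
    exists_normal_ratio A gensZ hF₀ hℓ hA f.2 hf0
  refine ⟨c, U₁, U₂, ⟨hm₁, IntermediateField.mem_top, hr₁⟩,
    ⟨hm₂, IntermediateField.mem_top, hr₂⟩, hc, ?_⟩
  apply Subtype.ext
  show (f : LaurentSeries Qb) * coeffMap A.subtype U₂ =
    algebraMap Qb (LaurentSeries Qb) c * coeffMap A.subtype U₁
  rw [algebraMap_laurentSeries_eq_single]
  exact hfU

end Gen

end Fermat.Agent.S48.H488
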