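/-
S48 / Tower A1 (helper488) -- leaf VAL1 (top form), UNCONDITIONAL.

    `val1Top : H136.Val1Top`

i.e. for every `M ≠ 0`, prime `p ∤ M` and valuation subring `A ⊆ ℚ̄` over `p`, every nonzero
`f ∈ ℚ̄ · F1 M` is `c · U₁ / U₂` with `c ∈ ℚ̄ˣ`, `U₁, U₂ ∈ A((q))` lying in `ℚ̄ · F1 M` with nonzero
reduction (Gauss normalisation; engine `H136.rawES1_of_valTop`).  The hypothesis `p ∤ M` is not
used.  Generic statement: `valG_top_of_gens` (`ValGen.lean`); also `val1pTop` for `F1p M p'`.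
-/
import Fermat.Agent.S48.H488.ValGen
import Fermat.Agent.S48.H136.RawES1VTop

set_option autoImplicit false

noncomputable section

namespace Fermat.Agent.S48.H488

open ModularCurve HahnSeries AlgebraicCurve IsLocalRing
open Fermat.Agent.S18 (Qb)
open Fermat.Agent.S48.H136 (ValG Val1Top)
open Fermat.Agent.S48.F1

/-- The integral generators `j(q^d)` (`d ∣ M`) and `P_a` (`a ≠ 0`) of `F1 M`, in `ℤ((q))`. -/
def gens1 (M : ℕ) : Set (LaurentSeries ℤ) :=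
  {x | ∃ (d : ℕ) (_ : NeZero d), d ∣ M ∧ x = qExpand ℤ d (jqModC ℤ)} ∪
    {x | ∃ a : ZMod M, a ≠ 0 ∧ x = divGenC ℤ M a}

theorem castInt_image_gens1 (K : Type*) [Field K] (M : ℕ) :
    (coeffMap (Int.castRingHom K)) '' gens1 M = divisorExpansionsC K M ∪ divGensC K M := by
  ext x
  constructor
  · rintro ⟨y, (⟨d, hd, hdM, rfl⟩ | ⟨a, ha, rfl⟩), rfl⟩
    · left
      exact ⟨d, hd, hdM, by rw [coeffMap_qExpand, coeffMap_jqModC]⟩
    · right
      exact ⟨a, ha, coeffMap_divGenC _ M a⟩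
  · rintro (⟨d, hd, hdM, rfl⟩ | ⟨a, ha, rfl⟩)
    · exact ⟨_, Or.inl ⟨d, hd, hdM, rfl⟩, by rw [coeffMap_qExpand, coeffMap_jqModC]⟩
    · exact ⟨_, Or.inr ⟨a, ha, rfl⟩, coeffMap_divGenC _ M a⟩

theorem F1C_eq_adjoin_gens1 (K : Type*) [Field K] (M : ℕ) :
    F1C K M = IntermediateField.adjoin K ((coeffMap (Int.castRingHom K)) '' gens1 M) := by
  rw [castInt_image_gens1]
  rfl

theorem F1_eq_adjoin_gens1 (M : ℕ) :
    F1 M = IntermediateField.adjoin ℚ ((coeffMap (Int.castRingHom ℚ)) '' gens1 M) :=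
  F1C_eq_adjoin_gens1 ℚ M

/-- **VAL for `F1 M`, top form, at every valuation subring over a prime.** -/
theorem valG_top_F1 (M : ℕ) {ℓ : ℕ} (hℓ : ℓ ≠ 0) (A : ValuationSubring Qb)
    (hA : (ℓ : Qb) ∈ A.nonunits) : ValG (F1 M) A ⊤ :=
  valG_top_of_gens A (gens1 M) (F1_eq_adjoin_gens1 M) hℓ hA

/-- **VAL1 (top form)**, unconditional. -/
theorem val1Top : Val1Top := by
  intro M p _ hp _ A hA
  exact valG_top_F1 M hp.ne_zero A hA

end Fermat.Agent.S48.H488
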